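-- Statement S21: Eichler–Shimura for Γ₀(N).  Program R / ES (team proof): injectivity via the maximum
-- principle, the bound dim parabolicHoms ≤ 2g (Shapiro + Scott), and S20 (dim S₂ = g).
import Fermat.Statements.S21
import Fermat.Agent.ProgramR.ES.Assembly
import Fermat.Agent.ProgramR.S20.Final

set_option autoImplicit false
open ModularCurve

namespace Fermat.Agent.S21

theorem result (N : ℕ) [NeZero N] :
    Function.Injective (ModularCurve.periodHomPair N)
      ∧ LinearMap.range (ModularCurve.periodHomPair N)
          = ModularCurve.Period.parabolicHoms ℂ (CongruenceSubgroup.Gamma0 N) ℂ :=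
  Fermat.Agent.ProgramR.ES.eichlerShimura_of_finrank N
    (Fermat.Agent.ProgramR.S20.finrank_cuspForm_gamma0 N)

end Fermat.Agent.S21
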