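-- Statement S22: the Hecke algebra of cusp forms of level Γ₀(N) and weight k (generated away
-- from S) is a finitely generated ℤ-module.
-- Proof (Team B: helper3, helper6, helper8): for k ≤ 1 the space of cusp forms is 0; for
-- k = m + 2 the Eichler period polynomials give a finitely generated, Hecke-stable lattice of
-- functionals separating the points of S_k(Γ₀(N)).
import Fermat.Statements.S22
import Fermat.Agent.TeamB.S22Wrapper
import Fermat.Agent.TeamB.Main

set_option autoImplicit false
open CuspForm

namespace Fermat.Agent.S22

theorem result (N : ℕ) [NeZero N] (k : ℤ) (S : Set ℕ) :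
    Module.Finite ℤ (CuspForm.heckeAlgebra N k S) :=
  Fermat.Agent.TeamB.heckeAlgebra_finite_of_main
    (fun N _ m S => Fermat.Agent.TeamB.heckeAlgebra_finite_main N m S) N k S

end Fermat.Agent.S22
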