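-- S18 (ModularCurve.eq_zero_of_reductionModL_eq_zero_of_nsmul_eq_zero): injectivity of the reduction
-- mod l on prime-to-l torsion of J_0(N).  Assembly: Asm.result_of_exists_genus (helper2) from the genus
-- equality G.exists_genus_of_forall_wildInput (helper5: l >= 5 tame; l = 2, 3 via Mod23.wildInput, helper9).
import Fermat.Statements.S18
import Fermat.Agent.S18lib.Asm.Final
import Fermat.Agent.S18lib.G.TwoThree
import Fermat.Agent.S18lib.Mod23.WildInput

set_option autoImplicit false
open ModularCurve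

namespace Fermat.Agent.S18

theorem result (N : ℕ) [NeZero N] {ℓ : ℕ}
    [Fact ℓ.Prime] (hℓN : ¬ ℓ ∣ N) (A : ValuationSubring (AlgebraicClosure ℚ)) (hA : A.LiesOverPrime ℓ)
    (h : ModularCurve.ReductionInputsModL A N) (m : ℕ) (hm : ¬ ℓ ∣ m) (z : ModularCurve.JZero N)
    (hmz : m • z = 0) (hz : ModularCurve.reductionModL A N z = 0) :
    z = 0 := by
  refine Fermat.Agent.S18lib.Asm.result_of_exists_genus N hℓN A hA h
    (Fermat.Agent.S18lib.G.exists_genus_of_forall_wildInput N A hℓN hA h fun h5 => ?_) m hm z hmz hz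
  have hℓ : ℓ.Prime := Fact.out
  have h23 : ℓ = 2 ∨ ℓ = 3 := by
    have h2 := hℓ.two_le
    interval_cases ℓ
    · exact Or.inl rfl
    · exact Or.inr rfl
    · exact absurd hℓ (by norm_num)
  exact Fermat.Agent.S18lib.Mod23.wildInput N A hℓN hA h h23

end Fermat.Agent.S18
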