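import Fermat.Statements.S02

set_option autoImplicit false
open FreyPackage

namespace Fermat.Agent.S02

/-- Core case: `a` odd, `b` even, coprime. -/
theorem frey_of_odd_even (a b c : ℤ) (ha : a ≠ 0) (hb : b ≠ 0) (hc : c ≠ 0) (p : ℕ)
    (pp : p.Prime) (hp5 : 5 ≤ p) (H : a ^ p + b ^ p = c ^ p) (hgcd : gcd a b = 1)
    (ha2 : ¬ (2 : ℤ) ∣ a) (hb2 : (2 : ℤ) ∣ b) : Nonempty FreyPackage := by
  have hpodd : Odd p := pp.odd_of_ne_two (by omega)
  have hb2' : (b : ZMod 2) = 0 := (ZMod.intCast_zmod_eq_zero_iff_dvd b 2).2 hb2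
  -- a mod 4 is 1 or 3
  have h4 : a % 4 = 1 ∨ a % 4 = 3 := by omega
  rcases h4 with h1 | h3
  · -- negate everything
    refine ⟨⟨-a, -b, -c, neg_ne_zero.2 ha, neg_ne_zero.2 hb, neg_ne_zero.2 hc, p, pp, hp5, ?_, ?_, ?_, ?_⟩⟩
    · rw [hpodd.neg_pow, hpodd.neg_pow, hpodd.neg_pow, ← H]; ring
    · rw [gcd_neg, neg_gcd]; exact hgcd
    · have : ((-a : ℤ) : ZMod 4) = ((3 : ℤ) : ZMod 4) := by
        rw [ZMod.intCast_eq_intCast_iff_dvd_sub]
        omega
      simpa using this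
    · simpa using hb2'
  · refine ⟨⟨a, b, c, ha, hb, hc, p, pp, hp5, H, hgcd, ?_, hb2'⟩⟩
    have : ((a : ℤ) : ZMod 4) = ((3 : ℤ) : ZMod 4) := by
      rw [ZMod.intCast_eq_intCast_iff_dvd_sub]
      omega
    simpa using this

/-- Coprime case. -/
theorem frey_of_coprime (a b c : ℤ) (ha : a ≠ 0) (hb : b ≠ 0) (hc : c ≠ 0) (p : ℕ)
    (pp : p.Prime) (hp5 : 5 ≤ p) (H : a ^ p + b ^ p = c ^ p) (hgcd : gcd a b = 1) :
    Nonempty FreyPackage := by
  have hpodd : Odd p := pp.odd_of_ne_two (by omega)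
  have hp0 : 0 < p := by omega
  by_cases ha2 : (2 : ℤ) ∣ a
  · by_cases hb2 : (2 : ℤ) ∣ b
    · exfalso
      have h2 : (2 : ℤ) ∣ gcd a b := dvd_gcd ha2 hb2
      rw [hgcd] at h2
      have := Int.le_of_dvd one_pos h2
      omega
    · -- a even, b odd: swap
      exact frey_of_odd_even b a c hb ha hc p pp hp5 (by rw [add_comm]; exact H)
        (by rw [gcd_comm]; exact hgcd) hb2 ha2
  · by_cases hb2 : (2 : ℤ) ∣ b
    · exact frey_of_odd_even a b c ha hb hc p pp hp5 H hgcd ha2 hb2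
    · -- both odd: c is even; use a^p + (-c)^p = (-b)^p
      have hc2 : (2 : ℤ) ∣ c := by
        have hao : Odd a := by rwa [← Int.not_even_iff_odd, even_iff_two_dvd]
        have hbo : Odd b := by rwa [← Int.not_even_iff_odd, even_iff_two_dvd]
        have hce : Even (c ^ p) := by rw [← H]; exact (hao.pow).add_odd (hbo.pow)
        exact even_iff_two_dvd.1 ((Int.even_pow' hp0.ne').1 hce)
      have hgac : gcd a c = 1 := by rw [← FreyPackage.gcdab_eq_gcdac hp0 H, hgcd]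
      refine frey_of_odd_even a (-c) (-b) ha (neg_ne_zero.2 hc) (neg_ne_zero.2 hb) p pp hp5 ?_ ?_
        ha2 (by rwa [dvd_neg])
      · rw [hpodd.neg_pow, hpodd.neg_pow, ← H]; ring
      · rw [gcd_neg]; exact hgac

theorem result (a b c : ℤ) (ha : a ≠ 0) (hb : b ≠ 0) (hc : c ≠ 0) (p : ℕ) (pp : p.Prime) (hp5 : 5 ≤ p) (H : a ^ p + b ^ p = c ^ p) : Nonempty FreyPackage := by
  have hp0 : 0 < p := by omega
  -- divide out by the gcd
  obtain ⟨a', b', ha', hb', hcop⟩ : ∃ a' b' : ℤ, a = a' * (Int.gcd a b : ℤ) ∧ b = b' * (Int.gcd a b : ℤ) ∧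
      Int.gcd a' b' = 1 := by
    have hpos : 0 < Int.gcd a b := Int.gcd_pos_of_ne_zero_left b ha
    obtain ⟨a', b', hc', h1, h2⟩ := Int.exists_gcd_one hpos
    exact ⟨a', b', h1, h2, hc'⟩
  set d : ℤ := (Int.gcd a b : ℤ) with hd
  have hd0 : d ≠ 0 := by
    intro h
    rw [h, mul_zero] at ha'
    exact ha ha'
  have hdc : d ∣ c := by
    rw [← Int.pow_dvd_pow_iff hp0.ne', ← H]
    apply dvd_add <;> rw [Int.pow_dvd_pow_iff hp0.ne']
    · exact ⟨a', by rw [ha']; ring⟩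
    · exact ⟨b', by rw [hb']; ring⟩
  obtain ⟨c', hc'⟩ := hdc
  have ha'0 : a' ≠ 0 := by rintro rfl; rw [zero_mul] at ha'; exact ha ha'
  have hb'0 : b' ≠ 0 := by rintro rfl; rw [zero_mul] at hb'; exact hb hb'
  have hc'0 : c' ≠ 0 := by rintro rfl; rw [mul_zero] at hc'; exact hc hc'
  have H' : a' ^ p + b' ^ p = c' ^ p := by
    have hdp : d ^ p ≠ 0 := pow_ne_zero _ hd0
    apply mul_left_cancel₀ hdp
    have : d ^ p * (a' ^ p + b' ^ p) = a ^ p + b ^ p := by rw [ha', hb']; ring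
    rw [this, H, hc']; ring
  exact frey_of_coprime a' b' c' ha'0 hb'0 hc'0 p pp hp5 H' (by
    show ((Int.gcd a' b' : ℕ) : ℤ) = 1
    rw [hcop]; rfl)

end Fermat.Agent.S02
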