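-- Statement S07 (row 7): every weight-2 cusp form of level Γ₀(2) is zero.
import Fermat.Statements.S07
import Fermat.Prelude.Thm_ModularForm_sturm_bound_Gamma0

set_option autoImplicit false
open WeierstrassCurve WeierstrassCurve.Affine WeierstrassCurve.Affine.Point
open CuspForm ModularFormClass UpperHalfPlane
open ModularForm

namespace Fermat.Agent.S07

open scoped MatrixGroups in
/-- The index of `Γ₀(2)` in `SL(2, ℤ)` is at most `4` (it is in fact `3`): a coset `A Γ₀(2)`
is determined by the first column of `A` modulo `2`. -/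
theorem index_Gamma0_two_le : (CongruenceSubgroup.Gamma0 2).index ≤ 4 := by
  classical
  let g : SL(2, ℤ) → ZMod 2 × ZMod 2 := fun A => ((A 0 0 : ZMod 2), (A 1 0 : ZMod 2))
  have key : ∀ A B : SL(2, ℤ), g A = g B → A⁻¹ * B ∈ CongruenceSubgroup.Gamma0 2 := by
    intro A B h
    have h0 : ((A 0 0 : ℤ) : ZMod 2) = ((B 0 0 : ℤ) : ZMod 2) := congrArg Prod.fst h
    have h1 : ((A 1 0 : ℤ) : ZMod 2) = ((B 1 0 : ℤ) : ZMod 2) := congrArg Prod.snd h
    rw [CongruenceSubgroup.Gamma0_mem]
    have hmul : (A⁻¹ * B) 1 0 = - A 1 0 * B 0 0 + A 0 0 * B 1 0 := by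
      rw [Matrix.SpecialLinearGroup.coe_mul, Matrix.SpecialLinearGroup.coe_inv,
        Matrix.adjugate_fin_two]
      simp [Matrix.mul_apply, Fin.sum_univ_two]
    rw [hmul]
    push_cast
    rw [← h0, ← h1]
    ring
  let F : SL(2, ℤ) ⧸ CongruenceSubgroup.Gamma0 2 → ZMod 2 × ZMod 2 := fun q => g q.out
  have hF : Function.Injective F := by
    intro q1 q2 h
    have h' := key _ _ h
    rw [← QuotientGroup.out_eq' q1, ← QuotientGroup.out_eq' q2]
    exact QuotientGroup.eq.mpr h'
  calc (CongruenceSubgroup.Gamma0 2).index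
      = Nat.card (SL(2, ℤ) ⧸ CongruenceSubgroup.Gamma0 2) := rfl
    _ ≤ Nat.card (ZMod 2 × ZMod 2) := Nat.card_le_card_of_injective F hF
    _ = 4 := by simp

theorem result (f : CuspForm (CongruenceSubgroup.Gamma0 2) 2) : f = 0 := by
  have h1 : (1 : ℝ) ∈ (CongruenceSubgroup.Gamma0 2 : Subgroup (GL (Fin 2) ℝ)).strictPeriods := by
    simp [CongruenceSubgroup.strictPeriods_Gamma0]
  have hidx : (CongruenceSubgroup.Gamma0 2).index ≤ 4 := index_Gamma0_two_le
  have hzero : (f : ModularForm (CongruenceSubgroup.Gamma0 2) 2) = 0 := by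
    apply ModularForm.sturm_bound_Gamma0 2
    intro n hn
    have h2 : (((2 : ℤ) * ((CongruenceSubgroup.Gamma0 2).index : ℤ)).toNat) / 12 = 0 := by
      have : ((2 : ℤ) * ((CongruenceSubgroup.Gamma0 2).index : ℤ)).toNat
          = 2 * (CongruenceSubgroup.Gamma0 2).index := by
        have : (2 : ℤ) * ((CongruenceSubgroup.Gamma0 2).index : ℤ)
            = ((2 * (CongruenceSubgroup.Gamma0 2).index : ℕ) : ℤ) := by push_cast; ring
        rw [this, Int.toNat_natCast]
      rw [this]
      omega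
    rw [h2] at hn
    have hn0 : n = 0 := Nat.le_zero.mp hn
    subst hn0
    exact CuspFormClass.qExpansion_coeff_zero f one_pos h1
  ext z
  have := congrArg (fun g : ModularForm (CongruenceSubgroup.Gamma0 2) 2 => g z) hzero
  simpa using this

end Fermat.Agent.S07
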