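-- Statement S08 (row 7): every weight-2 cusp form of level Γ₀(1) is zero.
import Fermat.Statements.S08
import Fermat.Prelude.Thm_ModularForm_sturm_bound_Gamma0

set_option autoImplicit false
open WeierstrassCurve WeierstrassCurve.Affine WeierstrassCurve.Affine.Point
open CuspForm ModularFormClass UpperHalfPlane
open ModularForm

namespace Fermat.Agent.S08

theorem result (f : CuspForm (CongruenceSubgroup.Gamma0 1) 2) : f = 0 := by
  have h1 : (1 : ℝ) ∈ (CongruenceSubgroup.Gamma0 1 : Subgroup (GL (Fin 2) ℝ)).strictPeriods := by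
    simp [CongruenceSubgroup.strictPeriods_Gamma0]
  have hidx : (CongruenceSubgroup.Gamma0 1).index = 1 := by
    rw [Subgroup.index_eq_one, eq_top_iff]
    intro A _
    rw [CongruenceSubgroup.Gamma0_mem]
    exact Subsingleton.elim _ _
  have hzero : (f : ModularForm (CongruenceSubgroup.Gamma0 1) 2) = 0 := by
    apply ModularForm.sturm_bound_Gamma0 1
    intro n hn
    rw [hidx] at hn
    have h2 : (((2 : ℤ) * ((1 : ℕ) : ℤ)).toNat) / 12 = 0 := by decide
    rw [h2] at hn
    have hn0 : n = 0 := Nat.le_zero.mp hn
    subst hn0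
    exact CuspFormClass.qExpansion_coeff_zero f one_pos h1
  ext z
  have := congrArg (fun g : ModularForm (CongruenceSubgroup.Gamma0 1) 2 => g z) hzero
  simpa using this

end Fermat.Agent.S08
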