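-- Statement S10 (row 9): no Galois-stable cofixed line for the Frey curve when p is 5, 7 or 13.
-- Proof: a Frey package with such a p contradicts Fermat's Last Theorem for the exponent p
-- (Kummer; the ring of integers of the p-th cyclotomic field is a principal ideal domain).
import Fermat.Statements.S10
import Fermat.Agent.Kummer.Main

set_option autoImplicit false
open WeierstrassCurve WeierstrassCurve.Affine WeierstrassCurve.Affine.Point
open CuspForm ModularFormClass UpperHalfPlane
open FreyPackage

namespace Fermat.Agent.S10

theorem result (P : FreyPackage) (hp : P.p = 5 ∨ P.p = 7 ∨ P.p = 13) : ¬ HasGaloisStableCofixedLine (K := AlgebraicClosure ℚ) ℚ P.freyCurve P.p := by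
  exfalso
  refine Fermat.Agent.Kummer.false_of_freyPackage P ?_
  rcases hp with hp | hp | hp <;> rw [hp]
  · exact Fermat.Agent.Kummer.flt_five
  · exact Fermat.Agent.Kummer.flt_seven
  · exact Fermat.Agent.Kummer.flt_thirteen

end Fermat.Agent.S10
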