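-- Statement S12 (row 11): the mod-p representation of the Frey curve has no Galois-stable cofixed line when p >= 17.
-- Proof: Project E2, `Fermat/Agent/S12lib/**` (one-step route: the pair (j(E), veluJ) on X_0(p), the core of S15 at every prime,
-- the local analysis at p, the 2-isogenous partners and an elementary endgame); assembly `S12lib/Assembly.lean` (`s12_of_atP`).
import Fermat.Statements.S12
import Fermat.Agent.S12lib.Assembly
import Fermat.Agent.S12lib.AtPGen

set_option autoImplicit false
open WeierstrassCurve WeierstrassCurve.Affine WeierstrassCurve.Affine.Point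
open CuspForm ModularFormClass UpperHalfPlane
open FreyPackage

namespace Fermat.Agent.S12

theorem result (P : FreyPackage) (hp : 17 ≤ P.p) : ¬ HasGaloisStableCofixedLine (K := AlgebraicClosure ℚ) ℚ P.freyCurve P.p :=
  Fermat.Agent.S12lib.s12_of_atP Fermat.Agent.S12lib.atPStmt P hp

end Fermat.Agent.S12
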