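-- Statement S13: a reducible mod `p` Frey representation has a Galois-stable cofixed line.
-- Assembly of the S13 library (`Fermat/Agent/S13lib/`).
import Fermat.Statements.S13
import Fermat.Agent.S13lib.Assembly
import Fermat.Agent.S13lib.TorsionPrime
import Fermat.Agent.S13lib.FreyAway
import Fermat.Agent.S13lib.FreyTop
import Fermat.Agent.S13lib.FreyLocalP

set_option autoImplicit false
open WeierstrassCurve WeierstrassCurve.Affine WeierstrassCurve.Affine.Point
open CuspForm ModularFormClass UpperHalfPlane
open FreyPackage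

namespace Fermat.Agent.S13

open Fermat.Agent.S13lib in
theorem result (P : FreyPackage) (hred : ¬ GaloisRepIsIrreducible (K := AlgebraicClosure ℚ) ℚ P.freyCurve P.p) : HasGaloisStableCofixedLine (K := AlgebraicClosure ℚ) ℚ P.freyCurve P.p := by
  have : Fact P.p.Prime := ⟨P.pp⟩
  obtain ⟨hnt, hfin, hcard⟩ := frey_torsion_facts P
  exact hasCofixedLine_of_bricks (W := (P.freyCurve : Affine ℚ)) (p := P.p) hnt hfin hcard
    (asm_hopen (P.freyCurve : Affine ℚ) P.p) (frey_huni P) (frey_hp_local P) (frey_hfix P)
    asm_hex asm_hmink hred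

end Fermat.Agent.S13
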