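-- Statement S09 (row 8): Mazur — the mod-p Galois representation of the Frey curve is irreducible.
-- Proof: a reducible representation has a Galois-stable cofixed line (S13), which is excluded for
-- p ∈ {5, 7, 13} (S10), p = 11 (S11) and p ≥ 17 (S12).
import Fermat.Statements.S09
import Fermat.Agent.S10
import Fermat.Agent.S11
import Fermat.Agent.S12
import Fermat.Agent.S13

set_option autoImplicit false
open WeierstrassCurve WeierstrassCurve.Affine WeierstrassCurve.Affine.Point
open CuspForm ModularFormClass UpperHalfPlane
open FreyPackage

namespace Fermat.Agent.S09

theorem result (P : FreyPackage) : GaloisRepIsIrreducible (K := AlgebraicClosure ℚ) ℚ P.freyCurve P.p := by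
  by_contra hred
  have hline := Fermat.Agent.S13.result P hred
  have hpp := P.pp
  have h5 := P.hp5
  by_cases h17 : 17 ≤ P.p
  · exact Fermat.Agent.S12.result P h17 hline
  · have hlt : P.p < 17 := not_le.1 h17
    by_cases h11 : P.p = 11
    · exact Fermat.Agent.S11.result P h11 hline
    · have hsmall : P.p = 5 ∨ P.p = 7 ∨ P.p = 13 := by
        generalize P.p = q at hpp h5 hlt h11
        interval_cases q <;> first | omega | (exfalso; revert hpp; decide)
      exact Fermat.Agent.S10.result P hsmall hline

end Fermat.Agent.S09
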