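-- S23 (row 22): S₂(Γ₀(N)) has an integral structure.
-- Program R / Descent: Aut(ℂ)-descent (helper5) + Hecke finite generation (S22) + R7 in q-expansion
-- form (helper3, helper7) + τ-action on the function field (helper1, helper2).
import Fermat.Statements.S23
import Fermat.Agent.ProgramR.Descent.S23Final

set_option autoImplicit false
open CuspForm

namespace Fermat.Agent.S23

theorem result (N : ℕ) [NeZero N] : CuspForm.HasIntegralStructure N 2 :=
  Fermat.Agent.ProgramR.Descent.hasIntegralStructure_two N

end Fermat.Agent.S23
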