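import Fermat.Statements.S16
import Fermat.Agent.S16lib.Final
import Fermat.Agent.S16lib.SmallLevel
import Fermat.Agent.S16lib.EisPrime
import Fermat.Agent.S16lib.LG.LowerBound
import Fermat.Agent.S16lib.M1
import Fermat.Agent.S16lib.M2.Main
import Fermat.Agent.S16lib.M3.Export
import Fermat.Agent.S16lib.M4.MT4b
import Fermat.Agent.S16lib.M5.MT5

set_option autoImplicit false
open ModularCurve CuspForm
open ModularCurve

namespace Fermat.Agent.S16

open Fermat.Agent.S16lib.Red16 in
theorem result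
    (p : ℕ) [Fact p.Prime] :
    Nat.card (↥(heckeLatticeAlgebra p ∅) ⧸
        Ideal.map ((latticeRestrictHom p ∅).toRingHom.comp (heckeEvalForms p 2))
          (eisensteinIdeal p)) =
      eisensteinNumerator p := by
  refine card_quotient_eisensteinIdeal p (subsingleton_cuspForm_of_lt_five p) ?_ ?_ ?_
  · intro _
    obtain ⟨E, h0, hk⟩ := Fermat.Agent.S16lib.EisPrime.exists_eisenstein_form p
    exact ⟨E, h0, fun k hk1 => by rw [hk k hk1]; rfl⟩
  · intro h5
    refine ⟨?_, ?_, ?_, ?_, ?_⟩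
    · intro ℓ hℓ h5ℓ
      by_cases h : ℓ = p
      · subst h
        exact fun G h1 h2 h3 => Fermat.Agent.S16lib.M2.mt2 ℓ h5 G h1 h2 h3
      · haveI := Fact.mk hℓ
        exact Fermat.Agent.S16lib.M1.mt1 p ℓ h5ℓ h
    · exact Fermat.Agent.S16lib.M3.mt3_1 p
    · exact Fermat.Agent.S16lib.M5.mt5 p
    · exact Fermat.Agent.S16lib.M3.mt2_1 p
    · intro h43
      have h8 : p % 8 = 3 ∨ p % 8 = 7 := by omega
      rcases h8 with h8 | h8
      · exact Fermat.Agent.S16lib.M3.mt2_3_of_mod_eight p h8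
      · exact Fermat.Agent.S16lib.M4.Final.mt4 p h8
  · exact fun P hP => Fermat.Agent.S16lib.LG.lower_bound p P hP

end Fermat.Agent.S16
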