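-- Statement S17 (Mordell–Weil for J₀(N), N ≥ 5 prime): Project G.
-- The statement below is byte-identical to the frozen statement ModularCurve.JZero.FermatFrozen.S17.
import Fermat.Statements.S17
import Fermat.Agent.S17lib.Top
import Fermat.Agent.S17lib.Red.Main
import Fermat.Agent.S17lib.GenDiv.GenusZero
import Fermat.Agent.S17lib.GenDiv.Assemble

set_option autoImplicit false
open ModularCurve AlgebraicCurve
open ModularCurve ModularCurve.JZero

namespace Fermat.Agent.S17

theorem result (N : ℕ) [NeZero N] (hN : N.Prime) (hN5 : 5 ≤ N) :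
    AddGroup.FG ↥(FixedPoints.addSubgroup ((AlgebraicClosure ℚ) ≃ₐ[ℚ] (AlgebraicClosure ℚ)) (JZero N)) := by
  exact Fermat.Agent.S17lib.s17_of_redStmt_gendiv_genus N
    (fun g t h => Fermat.Agent.S17lib.Red.red_core h)
    (fun g₀ hF m hm => by
      rcases Nat.eq_zero_or_pos g₀ with h0 | hpos
      · subst h0; exact Fermat.Agent.S17lib.gendiv_of_genus_zero hF _ _ _ m
      · exact Fermat.Agent.S17lib.gendiv_mono
          (Fermat.Agent.S17lib.LS.gendiv_modular N hF hpos _ _ hm.pos) (le_max_left _ _))

end Fermat.Agent.S17
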