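-- Statement S24 (row 23): the genus of the function field of `X₀(N)` over `ℚ̄` is `genusFormula N`.
-- Proof: Program R, S24 track. Riemann–Hurwitz for `j̄ : X₀(N) → ℙ¹` on the prelude genus
-- (`ProgramR/RHLocal`), the degree `[F̄_N : ℚ̄(j̄)] = ψ(N)` (`BarField/Degree`), the fibre counts over
-- `j̄ = a` (`BarField/FiniteChart`) and the count of poles of `j̄` (`BarField/PolarBar`), assembled in
-- `ProgramR/S24/Final`.
import Fermat.Statements.S24
import Fermat.Agent.ProgramR.S24.Final

set_option autoImplicit false
open ModularCurve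

namespace Fermat.Agent.S24

theorem result (N : ℕ) [NeZero N]
    [AlgebraicCurve.HasCanonicalDivisor (K := AlgebraicClosure ℚ) (F := ↥(ModularCurve.modularFunctionFieldBar N))] :
    (AlgebraicCurve.genus (AlgebraicClosure ℚ) ↥(ModularCurve.modularFunctionFieldBar N) : ℚ)
      = ModularCurve.genusFormula N :=
  Fermat.Agent.ProgramR.S24.genus_modularFunctionFieldBar N

end Fermat.Agent.S24
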