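-- Statement S26 (row 25): the n-torsion of an abelian variety over an algebraically closed field has
-- n^(2g) points when n is invertible
-- (`GoodReductionJacobian.RelativeGroupLaw.natCard_isTorsionPoint_eq_pow_of_natCast_ne_zero`).
-- Project K: the whole proof lives in `Fermat/Agent/S26lib/**`; the top is `Prod.card_torsion_of_lift`
-- (theorem of the cube on `A x A` via the parabolic identity) and its only input is
-- `RelCurve.exists_liftAt` (lifting of trivialisations along a relative curve).
import Fermat.Statements.S26
import Fermat.Agent.S26lib.Prod.SqAll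
import Fermat.Agent.S26lib.RelCurve.ExistsLiftAt

set_option autoImplicit false
set_option autoImplicit false
open CategoryTheory CategoryTheory.Limits AlgebraicGeometry NeronModelInfra GoodReductionJacobian
universe u
open GoodReductionJacobian GoodReductionJacobian.RelativeGroupLaw

namespace Fermat.Agent.S26

open Fermat.Agent.S26lib in
theorem result
    (K : Type u) [Field K] [IsAlgClosed K] {A : Scheme.{u}} (f : A ⟶ Spec (CommRingCat.of K))
    (L : RelativeGroupLaw K f) (hc : L.IsCommutative) (hA : AbelianSchemePropertyBundle K f)
    (g : ℕ) [SmoothOfRelativeDimension g f] (n : ℕ) (hn : (n : K) ≠ 0) :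
    Nat.card {x : SchemeHomOver (𝟙 (Spec (CommRingCat.of K))) f //
        L.IsTorsionPoint (𝟙 (Spec (CommRingCat.of K))) n x} = n ^ (2 * g) := by
  have := Weil.isIntegral_of_bundle hA
  have := Weil.isNoetherian_of_bundle hA
  have := Prod.isIntegral_A2' f hA
  have := hA.proper
  exact Prod.card_torsion_of_lift L hA hc g n hn
    (Prod.liftStatement_of_general L (Hub.ufd_stalk hA)
      (fun sC sT => RelCurve.exists_liftAt sC sT))

end Fermat.Agent.S26
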