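-- Statement S28 (row 27): Igusa - the special fibre of the Igusa model of X₀(N) is integral.
-- The statement below is byte-identical to the frozen statement
-- ModularCurve.IgusaScheme.FermatFrozen.S28 (Fermat/Statements/S28.lean).
import Fermat.Statements.S28
import Fermat.Agent.S28lib.Assembly
import Fermat.Agent.S28lib.JIntegral
import Fermat.Agent.S28lib.PhiRoot
import Fermat.Agent.S28lib.PhiP
import Fermat.Agent.S28lib.UnitB
import Fermat.Agent.S28lib.Theta
import Fermat.Agent.S28lib.Chain
import Fermat.Agent.S28lib.Reduction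

set_option autoImplicit false
open AlgebraicGeometry CategoryTheory CategoryTheory.Limits ModularCurve ModularCurve.IgusaScheme
noncomputable section
set_option autoImplicit false
open ModularCurve ModularCurve.IgusaScheme

namespace Fermat.Agent.S28

open Fermat.Agent.S28lib

set_option maxHeartbeats 4000000 in
set_option synthInstance.maxHeartbeats 400000 in
theorem result
    (N : ℕ) [NeZero N] (ℓ : ℕ) [Fact ℓ.Prime] (hℓN : ¬ ℓ ∣ N)
    (K : Type) [Field K] [CharP K ℓ] [Algebra ↥(GaloisRep.ratLocalizedAt ℓ) K] :
    IsIntegral ↑(pullback (igusaTo N ℓ)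
      (Spec.map (CommRingCat.ofHom (algebraMap ↥(GaloisRep.ratLocalizedAt ℓ) K)))) := by
  exact isIntegral_of_bricks N ℓ hℓN K
    (fun p _ k _ ι hp => modPolyData_of_ringHom p ι hp)
    (isIntegral_jAt_of_modPoly (fun p _ hp => exists_modPoly_root p hp) N)
    (fun p _ k _ ι hp => nuQ_integral p ι hp)
    (fun p _ k _ hp D => nuQ_rational p hp D)
    (fun k _ _ N' _ hN' hΦ hU => exists_independent_monomials k N' hN' hΦ hU)
    (exists_phi N ℓ hℓN)

end Fermat.Agent.S28
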