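-- Statement S35 (row 34): CuspForm.IsNewform.exists_galoisRepAdic_charpoly_frobenius_eq_of_dvd_of_not_sq_dvd.
-- Assembly (route FN = "Frobenius on the q-new torsion"):
-- * project LSc (J-level, function-field language): for `q ∥ N`, `q ≠ p`, every Frobenius lift `σ`
--   at `q` satisfies `d • (σ² - q²)(σ² - 1) x = 0` on the q-new part of `J₀(N)[p^k]`
--   (`LSc.Inst.frobNewTors`);
-- * brick R2 (`S35lib/New`): a Hecke killer `P` (noncommutative integer polynomial in the `T_ℓ`,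
--   `ℓ ∤ N`) with `P(a(g)) ≠ 0` maps all of `J₀(N)[p^k]` into the q-new part (`g` is a newform)
--   (`S35lib.New.frobKillTors_of_frobNewTors`);
-- * bricks R3/R4 (`S35lib/R3`, `S35lib/Gal`): the S30 chain for the eigenlattice of `g` itself with
--   the killed relation, `det ρ = χ_p` and the 2×2 endgame (`S35lib.s35_of_frobKill`).
import Fermat.Statements.S35
import Fermat.Agent.S35lib.R3.S30FN
import Fermat.Agent.S35lib.New.FinalTors
import Fermat.Agent.LSc.Inst.FrobNewTors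

set_option autoImplicit false
set_option autoImplicit false
open Polynomial
open CuspForm CuspForm.IsNewform

namespace Fermat.Agent.S35

theorem result
    {M : ℕ} [NeZero M] {g : CuspForm (CongruenceSubgroup.Gamma0 M) 2} (hg : g.IsNewform)
    (lam : ℕ) [Fact lam.Prime]
    (S : Finset ℕ)
    (O' : Type) [CommRing O'] [IsDomain O'] [IsDiscreteValuationRing O']
    [IsAdicComplete (IsLocalRing.maximalIdeal O') O'] [Finite (IsLocalRing.ResidueField O')]
    [CharZero O'] (hlamO' : (lam : O') ∈ IsLocalRing.maximalIdeal O')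
    (chig : CuspForm.heckeAlgebra M 2 (↑S : Set ℕ) →+* ℂ)
    (hchig : ∀ (ℓ : ℕ) (hℓ : ℓ.Prime) (hℓM : ¬ ℓ ∣ M) (hℓS : ℓ ∉ (↑S : Set ℕ)),
      chig (CuspForm.heckeAlgebra.T hℓ hℓM hℓS) = ModularFormClass.qCoeff g ℓ)
    (iota : chig.range →+* O')
    (hlamS : lam ∈ S) (hMS : ∀ q : ℕ, q.Prime → q ∣ M → q ∈ S)
    :
    ∃ (O'' : Type) (_ : CommRing O'') (_ : IsDomain O'') (_ : IsDiscreteValuationRing O'')
      (_ : IsAdicComplete (IsLocalRing.maximalIdeal O'') O'') (_ : Finite (IsLocalRing.ResidueField O''))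
      (_ : CharZero O'') (_ : Algebra O' O'') (_ : Module.Finite O' O'') (_ : IsLocalHom (algebraMap O' O'')),
      Function.Injective (algebraMap O' O'') ∧
      ∃ ρ : GaloisRepAdic O'',
        (∀ (ℓ : ℕ) (hℓ : ℓ.Prime) (hℓM : ¬ ℓ ∣ M) (hℓS : ℓ ∉ (↑S : Set ℕ)),
          ∀ A : ValuationSubring (AlgebraicClosure ℚ), A.LiesOverPrime ℓ →
            ∀ σ : AlgebraicClosure ℚ ≃ₐ[ℚ] AlgebraicClosure ℚ, A.IsFrobeniusAt σ ℓ →
              LinearMap.charpoly (ρ.ρ σ) =
                X ^ 2 - C (algebraMap O' O'' ((iota.comp chig.rangeRestrict) (CuspForm.heckeAlgebra.T hℓ hℓM hℓS))) * X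
                  + C ((ℓ : O''))) ∧
        (∀ q : ℕ, q.Prime → q ≠ lam → q ∣ M → ¬ q ^ 2 ∣ M →
          ∀ A : ValuationSubring (AlgebraicClosure ℚ), A.LiesOverPrime q →
            ∀ σ : AlgebraicClosure ℚ ≃ₐ[ℚ] AlgebraicClosure ℚ, A.IsFrobeniusAt σ q →
              LinearMap.charpoly (ρ.ρ σ) = X ^ 2 - C ((q : O'') + 1) * X + C ((q : O'')) ∨
              LinearMap.charpoly (ρ.ρ σ) = X ^ 2 + C ((q : O'') + 1) * X + C ((q : O''))) :=
  Fermat.Agent.S35lib.s35_of_frobKill lam M hg.1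
    (Fermat.Agent.S35lib.New.frobKillTors_of_frobNewTors Fact.out hg
      (fun _ _ _ _ hq hqM hqp => Fermat.Agent.LSc.Inst.frobNewTors hq hqM hqp Fact.out))
    S hlamS hMS O' hlamO' chig hchig iota

end Fermat.Agent.S35
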