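-- S37 (ModularCurve.SpecializationExists for J_0(N)): the Eichler-Shimura congruence relation in the
-- packaged form of the prelude.  Assembly: Glue.result_of_inputs from the inputs at every place
-- A over a prime l not dividing N p: unconditional good reduction (B3.reductionInputsModL), equivariance
-- of the reduction map (C0), Eichler-Shimura on Pic0 (ES, via the support data ES.supportData) and S18.
import Fermat.Statements.S37
import Fermat.Agent.S37lib.Glue.Inputs
import Fermat.Agent.S37lib.ES.SupportMod

set_option autoImplicit false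
open ModularCurve

namespace Fermat.Agent.S37

theorem result (N p : ℕ) [NeZero N] (hcomm : ModularCurve.HeckeOperatorsCommuteBar N) : letI := ModularCurve.heckeModuleBar N; ∀ (_ : SMulCommClass (AlgebraicClosure ℚ ≃ₐ[ℚ] AlgebraicClosure ℚ) ModularCurve.HeckeAlg (ModularCurve.JZero N)), ModularCurve.SpecializationExists (K := ℚ) (L := AlgebraicClosure ℚ) N p (ModularCurve.JZero N) :=
  Fermat.Agent.S37lib.Glue.result_of_inputs N p hcomm (fun ℓ hℓ hℓNp A hA =>
    haveI : Fact ℓ.Prime := ⟨hℓ⟩
    Fermat.Agent.S37lib.Glue.inputs_of_supportData N ℓ hℓ A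
      (fun h => hℓNp (Dvd.dvd.mul_right h p)) hA
      (Fermat.Agent.S37lib.ES.supportData N A (fun h => hℓNp (Dvd.dvd.mul_right h p)) hA _))

end Fermat.Agent.S37
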