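-- Statement S44 (row 38): level lowering at `p` for the Frey curve at its conductor level.
-- If the mod `p` representation of the Frey curve is irreducible and modular of the conductor level `N`
-- with `p ∣ N`, then it is modular of a level `M ∣ N` prime to `p`.
-- Proof (Project LSq; helper1 … helper9 + lead, library `Fermat/Agent/S44lib/`): `p ∣ N` forces
-- `p ∣ abc`, so the Frey curve has multiplicative reduction at `p` with `p ∣ v_p(Δ)` and `E[p]` is peu
-- ramifié at `p` (Q3).  The Frey module sits Hecke-equivariantly inside `J₀(N)[p]` (Q1: eigen-torsion,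
-- Eichler–Shimura, weak Chebotarev, Boston–Lenstra–Ribet) with a non-Eisenstein eigenvalue (NonEis).  On the
-- nodal model of `X₀(N)` at `p ∥ N` the Kummer map `Ψ` of the special fibre (Q2a) is Hecke-equivariant (Q4),
-- its residues at the supersingular points are Eisenstein for peu ramifié classes (`(M′)`: break-one rigidity
-- on the annuli), hence vanish for a non-Eisenstein eigenvector, and a residue-free non-zero eigenclass on the
-- two components `X₀(N/p)_{𝔽_p}` is the logarithmic derivative of a mod `p` eigenform of level `N/p`
-- (Q5: regular differentials = reductions of integral cusp forms, Deligne–Serre lifting).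
import Fermat.Statements.S44
import Fermat.Agent.S44lib.Iface
import Fermat.Agent.S44lib.Q1.Main
import Fermat.Agent.S44lib.Q1.NonEis
import Fermat.Agent.S44lib.Q3.Stmt
import Fermat.Agent.S44lib.Geom
import Fermat.Agent.S44lib.Q5.C1.Final

set_option autoImplicit false
open WeierstrassCurve WeierstrassCurve.Affine WeierstrassCurve.Affine.Point
open CuspForm ModularFormClass UpperHalfPlane
open FreyPackage
open Fermat.Agent.S44lib

namespace Fermat.Agent.S44

theorem result (P : FreyPackage) {N : ℕ} (hcond : P.IsConductorLevel N) (hpN : P.p ∣ N) (hirr : GaloisRepIsIrreducible (K := AlgebraicClosure ℚ) ℚ P.freyCurve P.p) (hmod : P.ModularRepOfLevel N) : ∃ M : ℕ, M ∣ N ∧ ¬ P.p ∣ M ∧ P.ModularRepOfLevel M :=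
  s44_of_stmts Q1.q1Stmt Q1.nonEisStmt Q3.q3Stmt (geomQStmt_of_lift Q5.liftStmt_holds) P hcond hpN hirr hmod

end Fermat.Agent.S44
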