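-- Statement S43 (Ribet's level lowering at an odd prime `q ≠ p`, Frey form): the final wiring of Project H.
--   `S43 ⇐ MazurBlock (B0) + IharaBlock`,  `IharaBlock ⇐ ModLevelBlock + IABlock` (patching, Ihara avoidance),
--   `ModLevelBlock ⇐ SideBlock` (Galois side), `SideBlock ⇐ LGCPointStmt + TWControlStmt` (Hecke side).
import Fermat.Statements.S43
import Fermat.Agent.S43lib.Iface
import Fermat.Agent.S43lib.B0.Main
import Fermat.Agent.S43lib.IA.Final
import Fermat.Agent.S43lib.Patch.Mod.Main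
import Fermat.Agent.S43lib.Mod4.Final
import Fermat.Agent.S43lib.B1.Control
import Fermat.Agent.S43lib.LGC.D.PointStmt

set_option autoImplicit false
open WeierstrassCurve WeierstrassCurve.Affine WeierstrassCurve.Affine.Point
open CuspForm ModularFormClass UpperHalfPlane
open FreyPackage

namespace Fermat.Agent.S43

theorem result (P : FreyPackage) {N q : ℕ} (hcond : P.IsConductorLevel N) (hq : q.Prime) (hq2 : q ≠ 2) (hqp : q ≠ P.p) (hqN : q ∣ N) (hirr : GaloisRepIsIrreducible (K := AlgebraicClosure ℚ) ℚ P.freyCurve P.p) (hmod : P.ModularRepOfLevel N) (hunr : P.GaloisRepUnramifiedAt q) : ∃ M : ℕ, M ∣ N ∧ ¬ q ∣ M ∧ P.ModularRepOfLevel M :=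
  Fermat.Agent.S43lib.s43_of_blocks Fermat.Agent.S43lib.B0.mazurBlock
    (Fermat.Agent.S43lib.iharaBlock_of_modLevelBlock
      (Fermat.Agent.S43lib.Mod4.modLevelBlock_of_sideBlock
        (Fermat.Agent.S43lib.Mod4.Hub.sideBlock_of Fermat.Agent.S43lib.LGC.D.lgcPointStmt
          Fermat.Agent.S43lib.B1.twControl))
      Fermat.Agent.S43lib.IA.iaBlock)
    P hcond hq hq2 hqp hqN hirr hmod hunr

end Fermat.Agent.S43
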