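-- S51: for a semistable integral Weierstrass curve, at least one of the mod-3 and mod-5
-- representations is irreducible.  Assembly of the `S51lib` pieces (rational points of X₀(15)).
import Fermat.Statements.S51
import Fermat.Agent.S51lib.Assembly
import Fermat.Agent.S51lib.TorsionFinal
import Fermat.Agent.S51lib.Model
import Fermat.Agent.S51lib.X015

set_option autoImplicit false
open WeierstrassCurve WeierstrassCurve.Affine WeierstrassCurve.Affine.Point
open CuspForm ModularFormClass UpperHalfPlane
open WeierstrassCurve

namespace Fermat.Agent.S51

theorem result (W : WeierstrassCurve ℤ) (hΔ : W.Δ ≠ 0) (hW : W.IsSemistableModel) : W.ModRepIsIrreducible 3 ∨ W.ModRepIsIrreducible 5 := by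
  exact Fermat.Agent.S51lib.s51_of_pieces Fermat.Agent.S51lib.rootPsi3Statement
    Fermat.Agent.S51lib.kernelQuadraticStatement
    (Fermat.Agent.S51lib.x015_points_of_descent Fermat.Agent.S51lib.X015.rational_points_15a)
    W hΔ hW

end Fermat.Agent.S51
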