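-- Statement S45 (row 41): level lowering to level 2 (`FreyPackage.level_lowering_to_two`).
-- Project J: the whole proof lives in `Fermat/Agent/S45lib/**`; the top is `Chain.s45_of_towerCore`
-- and the tower record of the levels `M q^k` is `MThick.towerCore_all`.
import Fermat.Statements.S45
import Fermat.Agent.S45lib.Chain.Final
import Fermat.Agent.S45lib.MThick.TowerFinal

set_option autoImplicit false
open WeierstrassCurve WeierstrassCurve.Affine WeierstrassCurve.Affine.Point
open CuspForm ModularFormClass UpperHalfPlane
open FreyPackage

namespace Fermat.Agent.S45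

theorem result (P : FreyPackage) (hmod : P.freyCurve.IsModular) (hirr : GaloisRepIsIrreducible (K := AlgebraicClosure ℚ) ℚ P.freyCurve P.p) : ∃ f : CuspForm (CongruenceSubgroup.Gamma0 2) 2, f ≠ 0 :=
  Fermat.Agent.S45lib.Chain.s45_of_towerCore
    (fun M q _ _ _ hqM _ A hA => Fermat.Agent.S45lib.MThick.towerCore_all M q hqM A hA) P hmod hirr

end Fermat.Agent.S45
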