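-- Statement S49: Deligne–Serre lifting lemma (see Fermat/Statements/S49.lean).
import Fermat.Statements.S49
import Fermat.Agent.Helper8.DeligneSerre

set_option autoImplicit false
open CuspForm EisensteinWeightOne CongruenceSubgroup ModularFormClass
open FLT FLT.AbstractIntegralStructure

namespace Fermat.Agent.S49

open Fermat.Agent.Helper8 in
theorem result
    {N : ℕ} [NeZero N] (h : CuspForm.HasIntegralBasis N) {a : ℕ → ℤ}
    (heig : FormalHecke.IsEigensystem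
      (fun ℓ => if ℓ ∣ N then 0 else ((chiNegThree ℓ : ℤ) : ℤ)) a)
    (hreal : CuspForm.IsLatticeRealized N a) :
    ∃ (f : CuspForm (Gamma0 N) 2) (_ : f.IsNormalizedEigenform)
      (𝔪' : Ideal (integralClosure ℤ ℂ)), 𝔪'.IsMaximal ∧
      ((3 : ℕ) : integralClosure ℤ ℂ) ∈ 𝔪' ∧
      ∀ (ℓ : ℕ) (_ : ℓ.Prime) (_ : ¬ ℓ ∣ N),
        ∃ c : integralClosure ℤ ℂ, (c : ℂ) = ModularFormClass.qCoeff f ℓ ∧
          c - (a ℓ : integralClosure ℤ ℂ) ∈ 𝔪' := by
  classical
  obtain ⟨f₀, -, af, haf, h3⟩ := hreal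
  have hcong : ∀ n, (3 : ℤ) ∣ af n - a n := fun n => by
    have := dvd_add (h3 n) (bridgeProduct_coeff_sub a n)
    simpa using this
  -- the proper ideal of the Hecke algebra
  have hI : congIdeal (N := N) f₀ ≠ ⊤ := fun htop =>
    one_notMem_congIdeal haf hcong heig.1 (htop ▸ Submodule.mem_top)
  obtain ⟨𝔪, h𝔪max, hI𝔪⟩ := Ideal.exists_le_maximal _ hI
  have := h𝔪max.isPrime
  have : FiniteDimensional ℂ (CuspForm (Gamma0 N) 2) := finiteDimensional_of_hasIntegralBasis h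
  -- a characteristic zero eigenvector
  obtain ⟨g, χ, hg, hχ, hker⟩ := exists_eigenvector_ker_le
    (K := ℂ) (V := CuspForm (Gamma0 N) 2) (A := HeckeT N)
    ((CuspForm.heckeAlgebra N 2 (∅ : Set ℕ)).val.toRingHom) 𝔪 (by
      intro t ht
      rw [RingHom.mem_ker] at ht
      have : t = 0 := Subtype.ext ht
      rw [this]
      exact 𝔪.zero_mem)
  obtain ⟨g', hg'eig, hg'val⟩ := exists_normalizedEigenform hg χ hχ
  -- the character takes values in the algebraic integers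
  have hint : ∀ t : HeckeT N, χ t ∈ integralClosure ℤ ℂ := fun t =>
    (isIntegral_heckeT h t).map χ.toIntAlgHom
  let χ' : HeckeT N →+* integralClosure ℤ ℂ := χ.codRestrict (integralClosure ℤ ℂ) hint
  have hχ'coe : ∀ t, ((χ' t : integralClosure ℤ ℂ) : ℂ) = χ t := fun t => rfl
  have hker' : RingHom.ker χ' ≤ 𝔪 := by
    intro t ht
    apply hker
    rw [RingHom.mem_ker] at ht ⊢
    rw [← hχ'coe, ht]
    rfl
  have hχ'int : χ'.IsIntegral := by
    apply RingHom.IsIntegral.tower_top (algebraMap ℤ (HeckeT N)) χ'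
    have : χ'.comp (algebraMap ℤ (HeckeT N)) = algebraMap ℤ (integralClosure ℤ ℂ) :=
      RingHom.ext_int _ _
    rw [this]
    exact algebraMap_isIntegral_iff.mpr inferInstance
  have hmap : 𝔪.map χ' ≠ ⊤ := fun htop =>
    h𝔪max.ne_top ((Ideal.map_eq_top_iff_of_ker_le χ' hker' hχ'int).mp htop)
  obtain ⟨𝔪', h𝔪'max, hle⟩ := Ideal.exists_le_maximal _ hmap
  have hmem : ∀ t ∈ congIdeal (N := N) f₀, χ' t ∈ 𝔪' := fun t ht =>
    hle (Ideal.mem_map_of_mem χ' (hI𝔪 ht))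
  refine ⟨g', hg'eig, 𝔪', h𝔪'max, ?_, ?_⟩
  · have := hmem _ (natCast_three_mem_congIdeal (N := N) haf)
    rwa [map_natCast] at this
  · intro ℓ hℓ hℓN
    refine ⟨χ' (heckeAlgebra.T hℓ hℓN (Set.notMem_empty ℓ)), ?_, ?_⟩
    · rw [hχ'coe, hg'val ℓ hℓ hℓN]
    · have := hmem _ (heckeT_sub_mem_congIdeal (N := N) haf hcong heig hℓ hℓN)
      rwa [map_sub, map_intCast] at this

end Fermat.Agent.S49
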