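-- Statement S52 (row 46): the 3–5 switch.
-- The statement below is byte-identical to the frozen statement WeierstrassCurve.FermatFrozen.S52
-- (Fermat/Statements/S52.lean; the theorem WeierstrassCurve.threeFiveSwitchCurve).
import Fermat.Statements.S52
import Fermat.Agent.S52lib.Pieces
import Fermat.Agent.S52lib.Glue.RedFiveStmt
import Fermat.Agent.S52lib.Spec.ThetaStmt
import Fermat.Agent.S52lib.Cusp5.Final

set_option autoImplicit false
open WeierstrassCurve WeierstrassCurve.Affine WeierstrassCurve.Affine.Point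
open CuspForm ModularFormClass UpperHalfPlane
open WeierstrassCurve

namespace Fermat.Agent.S52

theorem result (W : WeierstrassCurve ℤ) (hΔ : W.Δ ≠ 0) (hW : W.IsSemistableModel) (h5 : W.ModRepIsIrreducible 5) : ∃ W' : WeierstrassCurve ℤ, W'.Δ ≠ 0 ∧ W'.IsSemistableModel ∧ W'.ModRepIsIrreducible 3 ∧ ∀ ℓ : ℕ, ℓ.Prime → W.IsGoodPrimeFor ℓ → W'.IsGoodPrimeFor ℓ → ℓ ≠ 5 → (5 : ℤ) ∣ (W'.apOfModel ℓ - W.apOfModel ℓ) :=
  Fermat.Agent.S52lib.s52_of_pieces Fermat.Agent.S52lib.model
    (Fermat.Agent.S52lib.Spec.thetaStatement_of_bridge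
      (fun u v z => Fermat.Agent.S52lib.Cusp5.bridge_HpH u v z)
      (fun u v z => Fermat.Agent.S52lib.Cusp5.bridge_TpH u v z))
    Fermat.Agent.S52lib.Glue.redFiveStatement Fermat.Agent.S52lib.Cusp5.cusp5
    Fermat.Agent.S52lib.quadChar W hΔ hW h5

end Fermat.Agent.S52
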