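-- Statement S53: existence of the universal deformation ring (Mazur, Ramakrishna), via
-- rigidification (normal form) + abstract pro-representability.
import Fermat.Statements.S53
import Fermat.Agent.TeamA.UnivProp
import Fermat.Agent.TeamA.Functor
import Fermat.Agent.TeamA.ProRepMain

set_option autoImplicit false
set_option autoImplicit false
open GaloisRep

namespace Fermat.Agent.S53

open Fermat.Agent.TeamA.Rep in
theorem result
    (𝒪 : Type) [CommRing 𝒪] [IsDomain 𝒪] [IsDiscreteValuationRing 𝒪]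
    [IsAdicComplete (IsLocalRing.maximalIdeal 𝒪) 𝒪] [Finite (IsLocalRing.ResidueField 𝒪)]
    (ρbar : ResidualGaloisRep (IsLocalRing.ResidueField 𝒪))
    (𝒟 : ∀ ⦃A : Type⦄ [CommRing A] [IsLocalRing A] [Algebra 𝒪 A], GaloisRepAdic A → Prop)
    (habs : ρbar.IsAbsolutelyIrreducible)
    (h𝒟 : GaloisRep.IsDeformationCondition 𝒪 𝒟)
    (hbar : 𝒟 (GaloisRepAdic.ofResidualGaloisRep ρbar))
    (hfin : GaloisRep.TangentFinite 𝒪 ρbar 𝒟) :
    Nonempty (GaloisRep.DeformationRingData 𝒪 ρbar 𝒟) := by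
  obtain ⟨Fr⟩ := nonempty_frame ρbar habs
  obtain ⟨P⟩ := nonempty_proRep (goodFunctor Fr h𝒟 hbar hfin)
  have hall : AllGood Fr 𝒟 (toMat P.u) := fun B _ _ _ _ _ q => P.good B q
  have huniv : UnivFinite Fr 𝒟 (toMat P.u) := by
    intro B _ _ _ _ _ s hs
    obtain ⟨φ, hφ, huniq⟩ := P.universal B (ofMat s) hs
    refine ⟨φ, fun g => ?_, fun φ' hφ' => huniq φ' ?_⟩
    · ext i j
      exact hφ (g, i, j)
    · intro x
      exact congrFun (congrFun (hφ' x.1) x.2.1) x.2.2
  exact ⟨{
    R := P.R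
    residue_surjective := IsTestAlg.residue_surjective
    absIrr := habs
    ρ := hall.rep
    isOfType := hall.isOfType h𝒟
    residual_isEquiv := hall.residual_isEquiv
    universal := by
      intro A _ _ _ _ _ _ hsurj ρA hD hres
      haveI : IsTestAlg 𝒪 A := ⟨inferInstance, hsurj⟩
      exact universal_complete h𝒟 hall huniv ρA hD hres }⟩

end Fermat.Agent.S53
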