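-- Statement S55 (row 49): Poitou–Tate duality `Ш¹(M^∨(1)) × Ш²(M) → 𝔽_p` is perfect (p odd, S ∋ p).
-- Proof: the S55 library `Fermat/Agent/S55lib/` (team work): `s55_of_K12` (helper4, Iface/Bridge) applied to
-- `k12_of_global` (helper7, GlobDual/K12Final) fed with
--   (T)   `Dev.card_torsion_le_top`        (helper5, Dev/GlobalCF)   ← (G) `Recip.fundClassStatement` (helper3 et al.)
--   (III) `PT.hIII`                         (helper7, GlobDual/HIII)  ← helper6's `k9All_tame/_wild`, helper2's (ORD-all)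
--   (K4)  `Dev.k4_global_of_fundClass`      (helper5 / helper8)       ← (G)
import Fermat.Statements.S55
import Fermat.Agent.S55lib.Iface.Bridge
import Fermat.Agent.S55lib.GlobDual.K12Final
import Fermat.Agent.S55lib.GlobDual.HIII
import Fermat.Agent.S55lib.Dev.GlobalCF
import Fermat.Agent.S55lib.Recip.FundClassStmt

set_option autoImplicit false
set_option autoImplicit false
open CategoryTheory Module groupCohomology ExtCitation
open groupCohomology

namespace Fermat.Agent.S55

open Fermat.Agent.S55lib in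
theorem result
    {p : ℕ} [Fact p.Prime] (hp2 : p ≠ 2) (S : Finset Nat.Primes) (hpS : pPrime p ∈ S)
    (M : Rep (ZMod p) (AlgebraicClosure ℚ ≃ₐ[ℚ] AlgebraicClosure ℚ))
    [FiniteDimensional (ZMod p) M]
    (hsm : ∀ m : M, ∃ F : IntermediateField ℚ (AlgebraicClosure ℚ), FiniteDimensional ℚ F ∧
      ∀ s ∈ F.fixingSubgroup, M.ρ s m = m)
    (hMur : ∀ q : Nat.Primes, q ∉ S → ∀ A : ValuationSubring (AlgebraicClosure ℚ),
      A.LiesOverPrime (q : ℕ) → ∀ g ∈ A.inertiaSubgroupIn ℚ, M.ρ g = 1) :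
    ∃ B : sha₁ S (M.dualTwist (cycloChar p)) →ₗ[ZMod p] sha₂ S M →ₗ[ZMod p] ZMod p,
      (∀ y, (∀ x, B y x = 0) → y = 0) ∧ (∀ x, (∀ y, B y x = 0) → x = 0) :=
  s55_of_K12 (k12_of_global (fun {_} _ hp2 S hpS =>
    ⟨Dev.card_torsion_le_top hp2 hpS
        (Dev.topClassStatement_of_fundClass (Recip.fundClassStatement hp2) ⟨_, hpS⟩),
     PT.hIII hp2 S hpS,
     Dev.k4_global_of_fundClass hp2 hpS (Recip.fundClassStatement hp2)⟩)) hp2 S hpS M hsm hMur

end Fermat.Agent.S55
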