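-- Statement S56 (row 50): Taylor–Wiles primes.  For an odd prime p and an absolutely irreducible residual
-- representation with cyclotomic determinant, split Frobenius polynomials and irreducible restriction to every
-- index-2 subgroup there is r such that for every n there are r Taylor–Wiles primes q ≡ 1 mod p^(n+1) for which
-- the (strict-ordinary resp. flat, minimally ramified) deformation ring is a quotient of 𝒪⟦X₁,…,X_r⟧.
-- Proof: the S56 library `Fermat/Agent/S56lib/` (team work) on top of the S55 library (Poitou–Tate):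
-- `Main.s56_of_inputs` (lead: Selmer-group bound by Greenberg–Wiles, choice of the primes, tangent-space bound)
-- fed with
--   hgood  `TW.hgood_s56`               (helper2, helper7)  the group theory: good elements σ for every cocycle
--   hN3    `Main.hN3_adRep`             (helper1, helper8, helper7, helper4, lead) global Euler characteristic
--   hN4/5  `Main.hN4_adRep/hN5_adRep`   (helper1, helper8, helper7) local Euler characteristics
--   hN8    `Main.card_le_card_fixed_complexConjugation` (helper4, helper5), hN9 `Main.card_invariants_adRep` (lead)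
--   hso_p  `Dict.hasLocalCond_so_p`     (helper4, helper5)  strict-ordinary local condition at p
--   hfl_p  `Dict.hasLocalCond_fl_p` + `Flat.exists_good` (helper3, helper4, helper5, helper6, helper7, helper8,
--          helper9, helper2) flat local condition at p: Fontaine's bound, Kummer levels, finite flat group schemes
--   hso_q/hfl_q `Main.hasLocalCond_so_q/_fl_q` (helper4, helper5) minimally ramified conditions at q ∈ Smin ∖ {p}.
import Fermat.Statements.S56
import Fermat.Agent.S56lib.Main.Glue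
import Fermat.Agent.S56lib.Main.N9
import Fermat.Agent.S56lib.Dict.LocalPkgSO
import Fermat.Agent.S56lib.TW.Final
import Fermat.Agent.S56lib.Main.GlueEuler
import Fermat.Agent.S56lib.Dict.FlatGood
import Fermat.Agent.S56lib.Flat.Good

set_option autoImplicit false
set_option autoImplicit false
open Polynomial IsLocalRing
open ResidualGaloisRep

namespace Fermat.Agent.S56

theorem result
    {𝒪 : Type} [CommRing 𝒪] [IsDomain 𝒪] [IsDiscreteValuationRing 𝒪]
    [IsAdicComplete (maximalIdeal 𝒪) 𝒪] [Finite (ResidueField 𝒪)]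
    (p : ℕ) [Fact p.Prime] (hp2 : p ≠ 2) (hp𝒪 : (p : 𝒪) ∈ maximalIdeal 𝒪)
    (ρbar : ResidualGaloisRep (ResidueField 𝒪))
    (habs : ρbar.IsAbsolutelyIrreducible)
    (hdet : (GaloisRepAdic.ofResidualGaloisRep ρbar).DetIsCyclotomic p)
    (hsplit : ∀ σ : AlgebraicClosure ℚ ≃ₐ[ℚ] AlgebraicClosure ℚ,
      ∃ α β : ResidueField 𝒪, LinearMap.charpoly (ρbar.ρ σ) = (X - C α) * (X - C β))
    (hTW : ∀ (K : Type) [Field K] [Algebra (ResidueField 𝒪) K]
      (G : Subgroup (AlgebraicClosure ℚ ≃ₐ[ℚ] AlgebraicClosure ℚ)), G.index = 2 →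
      ∀ V : Submodule K (ρbar.baseChange K).V,
        (∀ σ ∈ G, ∀ x ∈ V, (ρbar.baseChange K).ρ σ x ∈ V) → V = ⊥ ∨ V = ⊤)
    (S Smin : Finset ℕ) (hpSmin : p ∈ Smin) (hSmin : Smin ⊆ S) (hS : ∀ q ∈ S, q.Prime)
    (hmin : ∀ q : ℕ, q.Prime → q ≠ p → (q ∈ Smin ↔ ¬ ρbar.IsUnramifiedAt q)) :
    (∃ r : ℕ, ∀ n : ℕ, ∃ qv : Fin r → ℕ, Function.Injective qv ∧
      (∀ i, (qv i).Prime ∧ qv i ∉ S ∧ p ^ (n + 1) ∣ qv i - 1) ∧
      (∀ i, ∀ P : ValuationSubring (AlgebraicClosure ℚ), P.LiesOverPrime (qv i) →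
        ∀ φ : AlgebraicClosure ℚ ≃ₐ[ℚ] AlgebraicClosure ℚ, P.IsFrobeniusAt φ (qv i) →
          ∃ α β : ResidueField 𝒪, α ≠ β ∧ LinearMap.charpoly (ρbar.ρ φ) = (X - C α) * (X - C β)) ∧
      ∀ DQ : GaloisRep.DeformationRingData 𝒪 ρbar (fun _A _ _ _ ρ =>
          GaloisRep.strictOrdinaryCondition 𝒪 p (Smin ∪ Finset.univ.image qv) ρ ∧
            ∀ q ∈ Smin, q.Prime → q ≠ p → ρ.IsUnipotentOnInertiaAt q),
        ∃ γ : MvPowerSeries (Fin r) 𝒪 →ₐ[𝒪] DQ.R, Function.Surjective γ) ∧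
    (∃ r : ℕ, ∀ n : ℕ, ∃ qv : Fin r → ℕ, Function.Injective qv ∧
      (∀ i, (qv i).Prime ∧ qv i ∉ S ∧ p ^ (n + 1) ∣ qv i - 1) ∧
      (∀ i, ∀ P : ValuationSubring (AlgebraicClosure ℚ), P.LiesOverPrime (qv i) →
        ∀ φ : AlgebraicClosure ℚ ≃ₐ[ℚ] AlgebraicClosure ℚ, P.IsFrobeniusAt φ (qv i) →
          ∃ α β : ResidueField 𝒪, α ≠ β ∧ LinearMap.charpoly (ρbar.ρ φ) = (X - C α) * (X - C β)) ∧
      ∀ DQ : GaloisRep.DeformationRingData 𝒪 ρbar (fun _A _ _ _ ρ =>
          GaloisRep.flatCondition 𝒪 p (Smin ∪ Finset.univ.image qv) ρ ∧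
            ∀ q ∈ Smin, q.Prime → q ≠ p → ρ.IsUnipotentOnInertiaAt q),
        ∃ γ : MvPowerSeries (Fin r) 𝒪 →ₐ[𝒪] DQ.R, Function.Surjective γ) := by
  classical
  have hCharP : CharP (ResidueField 𝒪) p := Fermat.Agent.S56lib.Main.charP_residueField p hp𝒪
  have hfr : Module.finrank (ResidueField 𝒪) ρbar.V = 2 := ρbar.finrank_eq
  let bbar : Module.Basis (Fin 2) (ResidueField 𝒪) ρbar.V :=
    Module.finBasisOfFinrankEq (ResidueField 𝒪) ρbar.V hfr
  refine Fermat.Agent.S56lib.Main.s56_of_inputs p hp2 ρbar hsplit S Smin hpSmin hSmin hmin bbar hCharP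
    ?hgood complexConjugation ?hN3 ?hN8 ?hN9 ?hN4 ?hN5 ?hso_p ?hfl_p ?hso_q ?hfl_q
  case hgood => exact fun n => Fermat.Agent.S56lib.TW.hgood_s56 p ρbar bbar hp2 habs hdet hsplit hTW (Fermat.Agent.S56lib.Main.primesIn Smin) n
  case hN3 => exact fun SP hpSP hM => Fermat.Agent.S56lib.Main.hN3_adRep p bbar hp2 SP hpSP hM
  case hN8 => exact Fermat.Agent.S56lib.Main.card_le_card_fixed_complexConjugation p ρbar bbar hdet
  case hN9 => exact Fermat.Agent.S56lib.Main.card_invariants_adRep p bbar hp2 habs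
  case hN4 => exact Fermat.Agent.S56lib.Main.hN4_adRep p bbar hp2 Smin hpSmin hmin
  case hN5 => exact fun q _ hq => Fermat.Agent.S56lib.Main.hN5_adRep p bbar hp2 Smin hpSmin hmin q hq
  case hso_p => exact fun S' => Fermat.Agent.S56lib.Dict.hasLocalCond_so_p p hp2 ρbar bbar Smin S'
  case hfl_p =>
    have := hCharP
    exact fun S' => Fermat.Agent.S56lib.Dict.hasLocalCond_fl_p p ρbar bbar hdet hsplit
      (fun hs hd L₀ _ _ h1 h2 h3 =>
        Fermat.Agent.S56lib.Flat.exists_good hp2 (Fermat.Agent.S56lib.Dict.resHom ρbar bbar) hs hd L₀ h1 h2 h3) Smin S'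
  case hso_q => exact fun S' q hqS hqp => Fermat.Agent.S56lib.Main.hasLocalCond_so_q p bbar hp2 Smin hpSmin hmin S' q hqS hqp
  case hfl_q => exact fun S' q hqS hqp => Fermat.Agent.S56lib.Main.hasLocalCond_fl_q p bbar hp2 Smin hpSmin hmin S' q hqS hqp

end Fermat.Agent.S56
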