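-- Statement S57 (row 51): patching, descent step.
import Fermat.Statements.S57
import Fermat.Agent.Helper9.GlDim
import Fermat.Agent.Helper9.PowerSeriesReg
import Fermat.Agent.Helper9.Descent

set_option autoImplicit false
open Algebra Algebra.PatchingLevel

namespace Fermat.Agent.S57

open Fermat.Agent.Helper9 MvPowerSeries RingTheory.Sequence IsLocalRing

section

variable {𝒪 : Type} [CommRing 𝒪]
    {r : ℕ} {R : Type} [CommRing R] [Algebra 𝒪 R]
    {M : Type} [AddCommGroup M] [Module R M]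
    (L : Algebra.PatchingLevel 𝒪 r R M ⊥)

/-- The `φ`-semilinear parametrisation of `N` by `(𝒪⟦X⟧)^d`. -/
noncomputable def paramHom : (Fin L.d → MvPowerSeries (Fin r) 𝒪) →+ L.N where
  toFun c := ∑ i, L.φ (c i) • L.b i
  map_zero' := by simp
  map_add' c c' := by
    simp only [Pi.add_apply, map_add, add_smul, Finset.sum_add_distrib]

theorem paramHom_apply (c : Fin L.d → MvPowerSeries (Fin r) 𝒪) :
    paramHom L c = ∑ i, L.φ (c i) • L.b i := rfl

theorem paramHom_bijective : Function.Bijective (paramHom L) := by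
  constructor
  · rw [injective_iff_map_eq_zero]
    intro c hc
    rw [paramHom_apply, L.b_rel] at hc
    ext1 i
    simpa using hc i
  · intro x
    obtain ⟨c, hc⟩ := L.b_span x
    exact ⟨c, hc.symm⟩

noncomputable def paramEquiv : (Fin L.d → MvPowerSeries (Fin r) 𝒪) ≃+ L.N :=
  AddEquiv.ofBijective (paramHom L) (paramHom_bijective L)

theorem paramEquiv_smul (a : MvPowerSeries (Fin r) 𝒪) (c : Fin L.d → MvPowerSeries (Fin r) 𝒪) :
    paramEquiv L (a • c) = L.φ a • paramEquiv L c := by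
  change paramHom L (a • c) = L.φ a • paramHom L c
  simp only [paramHom_apply, Pi.smul_apply, smul_eq_mul, map_mul, mul_smul, Finset.smul_sum]

theorem finite_N : Module.Finite (MvPowerSeries (Fin r) 𝒪) L.N := by
  classical
  refine ⟨⟨Finset.univ.image L.b, ?_⟩⟩
  rw [_root_.eq_top_iff]
  intro x _
  obtain ⟨c, rfl⟩ := L.b_span x
  exact Submodule.sum_mem _ (fun i _ => Submodule.smul_mem _ _ (Submodule.subset_span (by simp)))

end

section

variable {𝒪 : Type} [CommRing 𝒪] [IsDomain 𝒪] [IsDiscreteValuationRing 𝒪]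
    {r : ℕ} {R : Type} [CommRing R] [Algebra 𝒪 R]
    {M : Type} [AddCommGroup M] [Module R M] [Nontrivial M]
    (L : Algebra.PatchingLevel 𝒪 r R M ⊥)

omit [IsDomain 𝒪] [IsDiscreteValuationRing 𝒪] in
theorem nontrivial_N : Nontrivial L.N := by
  by_contra h
  rw [not_nontrivial_iff_subsingleton] at h
  have : Subsingleton M := L.π_surjective.subsingleton
  exact not_subsingleton M this

/-- Key step: `N` is free over `𝒪⟦X₁,…,X_r⟧`. -/
theorem free_N : Module.Free (MvPowerSeries (Fin r) 𝒪) L.N := by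
  obtain ⟨ϖ, hϖ⟩ := IsDiscreteValuationRing.exists_irreducible 𝒪
  have hmaxO : maximalIdeal 𝒪 = Ideal.span {ϖ} := hϖ.maximalIdeal_eq
  have hregO : IsSMulRegular 𝒪 ϖ := (IsRegular.of_ne_zero hϖ.ne_zero).left.isSMulRegular
  have hR : Nontrivial R := Module.nontrivial R M
  have hfin : Module.Finite (MvPowerSeries (Fin r) 𝒪) L.N := finite_N L
  have hreg : IsWeaklyRegular (MvPowerSeries (Fin r) 𝒪) (MvPS.gens r ϖ) :=
    MvPS.isWeaklyRegular_gens r hregO
  have hmax : maximalIdeal (MvPowerSeries (Fin r) 𝒪) = Ideal.ofList (MvPS.gens r ϖ) :=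
    MvPS.maximalIdeal_eq_ofList_gens r hmaxO
  -- the regular sequence on `S^d`
  have hreg1 : IsWeaklyRegular (Fin L.d → MvPowerSeries (Fin r) 𝒪) (MvPS.gens r ϖ) :=
    ((TensorProduct.rid (MvPowerSeries (Fin r) 𝒪) (Fin L.d → MvPowerSeries (Fin r) 𝒪)).isWeaklyRegular_congr
      _).mp (hreg.isWeaklyRegular_lTensor (M₂ := Fin L.d → MvPowerSeries (Fin r) 𝒪))
  -- transported to `N`
  have hreg2 : IsWeaklyRegular L.N ((MvPS.gens r ϖ).map L.φ) :=
    ((paramEquiv L).isWeaklyRegular_congr (List.forall₂_map_right_iff.mpr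
      (List.forall₂_same.mpr fun a _ c => paramEquiv_smul L a c))).mp hreg1
  have hmem : ∀ y ∈ (MvPS.gens r ϖ).map L.φ, y ∈ maximalIdeal (MvPowerSeries (Fin r) 𝒪) := by
    intro y hy
    rw [List.mem_map] at hy
    obtain ⟨a, ha, rfl⟩ := hy
    rw [MvPS.gens, List.mem_append, List.mem_map, List.mem_singleton] at ha
    rcases ha with ⟨i, _, rfl⟩ | rfl
    · rw [mem_maximalIdeal, mem_nonunits_iff]
      intro hu
      have := hu.map L.ψ
      rw [L.ψ_φ_X i] at this
      exact not_isUnit_zero this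
    · have : L.φ (C ϖ) = C ϖ := by
        rw [c_eq_algebraMap, AlgHom.commutes]
      rw [this, hmax]
      exact Ideal.subset_span (by simp [MvPS.gens])
  exact free_of_isWeaklyRegular_of_length_eq (MvPS.gens r ϖ) hreg hmax L.N
    ((MvPS.gens r ϖ).map L.φ) (by simp) hreg2 hmem

end

theorem result
    {𝒪 : Type} [CommRing 𝒪] [IsDomain 𝒪] [IsDiscreteValuationRing 𝒪]
    {r : ℕ} {R : Type} [CommRing R] [Algebra 𝒪 R]
    {M : Type} [AddCommGroup M] [Module R M] [Nontrivial M]
    (L : Algebra.PatchingLevel 𝒪 r R M ⊥) :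
    Module.Free R M ∧ Module.annihilator R M = ⊥ ∧
      RingHom.ker L.ψ = Ideal.span (Set.range fun i : Fin r => L.φ (MvPowerSeries.X i)) := by
  have hfree : Module.Free (MvPowerSeries (Fin r) 𝒪) L.N := free_N L
  have hfin : Module.Finite (MvPowerSeries (Fin r) 𝒪) L.N := finite_N L
  have hI : Ideal.span (Set.range fun i : Fin r => L.φ (MvPowerSeries.X i)) ≤
      RingHom.ker (L.ψ : MvPowerSeries (Fin r) 𝒪 →+* R) := by
    rw [Ideal.span_le]
    rintro _ ⟨i, rfl⟩
    exact L.ψ_φ_X i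
  exact descent_of_basis (L.ψ : MvPowerSeries (Fin r) 𝒪 →+* R) L.ψ_surjective _ hI
    (Module.Free.chooseBasis (MvPowerSeries (Fin r) 𝒪) L.N) L.π L.π_smul L.π_surjective L.ker_π

end Fermat.Agent.S57
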