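-- Statement S59 (row 53): modularity lifting at the conductor for `p ∈ {3, 5}`.
-- Project I: `Hub.s59_of_two` (Fermat/Agent/S59lib/Hub/Top.lean) with the two last cores
-- `RT.pStepCoreStmt` (Fermat/Agent/S59lib/RT/PStepInst.lean) and `R7b.lower32Core` (Fermat/Agent/S59lib/R7b/Main.lean).
import Fermat.Statements.S59
import Fermat.Agent.S59lib.Hub.Top
import Fermat.Agent.S59lib.RT.PStepInst
import Fermat.Agent.S59lib.R7b.Main

set_option autoImplicit false
open scoped WeierstrassCurve.Affine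
open WeierstrassCurve

namespace Fermat.Agent.S59

theorem result (p : ℕ) (hp : p = 3 ∨ p = 5)
    (W : WeierstrassCurve ℤ) (hΔ : W.Δ ≠ 0) (hW : W.IsSemistableModel) (hirr : W.ModRepIsIrreducible p)
    (M₀ : ℕ) [NeZero M₀] (hres₀ : W.IsResiduallyModularOfLevel p M₀)
    (hM₀ : ¬ p ^ 2 ∣ M₀)
    (hM₀3 : ∀ q : ℕ, q.Prime → q ≠ p → ¬ q ^ 3 ∣ M₀) :
    Mlc1IsModularModelOfExactConductorLevel W :=
  Fermat.Agent.S59lib.Hub.s59_of_two Fermat.Agent.S59lib.RT.pStepCoreStmt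
    Fermat.Agent.S59lib.R7b.lower32Core p hp W hΔ hW hirr M₀ hres₀ hM₀ hM₀3

end Fermat.Agent.S59
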